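/-
GATE-N / S48-P3-LAT1 (helper70), part 4: the export of `lat1` in the shapes consumed by the
P3 assembly (helper94 `EigFinalHyp.eig1Rel_of_hyps`: `χ`, `hχ0`, `hχgood`, `heigT`, `heigD`),
with helper42's FINAL TRIPLE (board 3526): `cohT ℓ := cohT1 ℓ ∘ diaCoh ℓ⁻¹`,
`a ℓ := θ(T_ℓ) · θ(⟨ℓ⟩⁻¹)`, `cohD d := diaCoh d⁻¹`, `χd d := θ(⟨d⟩)⁻¹`.
All coordinates `f : k0 →+ B` at once (take `B := ZMod p`).
-/
import Mathlib
import Fermat.Agent.DS.P3.Lat.LatInst1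

set_option autoImplicit false

open scoped MatrixGroups
open CongruenceSubgroup ModularCurve.Period

namespace Fermat.Agent.DS.P3.Lat

open Fermat.Agent.DS.Hecke Fermat.Agent.DS.P3.Coh1 Fermat.Agent.DS.P3.ZStr1

variable {M : ℕ} [NeZero M]

/-- coordinates of an eigenclass are eigen "through `f`": the `T_ℓ`-part -/
theorem cohT1_comp_eigen {k0 : Type*} [Field k0] {ℓ : ℕ} [Fact ℓ.Prime] (hℓM : ¬ ℓ ∣ M)
    {χ : Additive (Gamma1 M) →+ k0} {a : k0} (hχ : cohT1 k0 hℓM χ = a • χ)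
    {B : Type*} [AddCommGroup B] (f : k0 →+ B) (g : Gamma1 M) :
    cohT1 B hℓM (f.comp χ) (Additive.ofMul g) = f (a * χ (Additive.ofMul g)) := by
  rw [cohT1_comp, hχ]
  rfl

/-- coordinates of an eigenclass are eigen "through `f`": the diamond part -/
theorem diaCoh_comp_eigen {k0 : Type*} [Field k0] (d : (ZMod M)ˣ)
    {χ : Additive (Gamma1 M) →+ k0} {a : k0} (hχ : diaCoh k0 d χ = a • χ)
    {B : Type*} [AddCommGroup B] (f : k0 →+ B) (g : Gamma1 M) :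
    diaCoh B d (f.comp χ) (Additive.ofMul g) = f (a * χ (Additive.ofMul g)) := by
  rw [diaCoh_comp, hχ]
  rfl

/-- the composite `cohT1 ℓ ∘ diaCoh u` on coordinates of a simultaneous eigenclass -/
theorem cohT1_diaCoh_comp_eigen {k0 : Type*} [Field k0] {ℓ : ℕ} [Fact ℓ.Prime] (hℓM : ¬ ℓ ∣ M)
    (u : (ZMod M)ˣ) {χ : Additive (Gamma1 M) →+ k0} {a b : k0}
    (hT : cohT1 k0 hℓM χ = a • χ) (hD : diaCoh k0 u χ = b • χ)
    {B : Type*} [AddCommGroup B] (f : k0 →+ B) (g : Gamma1 M) :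
    cohT1 B hℓM (diaCoh B u (f.comp χ)) (Additive.ofMul g)
      = f (a * b * χ (Additive.ofMul g)) := by
  rw [diaCoh_comp, hD]
  have h1 : f.comp (b • χ) = (f.comp (AddMonoidHom.mulLeft b)).comp χ :=
    AddMonoidHom.ext fun _ => rfl
  rw [h1, cohT1_comp, hT]
  show f (b * (a * χ (Additive.ofMul g))) = _
  rw [← mul_assoc, mul_comm b a]

/-- **LAT1, export form** (helper94 `eig1Rel_of_hyps` inputs `χ hχ0 hχgood heigT heigD` with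
helper42's triple). -/
theorem lat1_export (hper : Per1Hyp M) (p : ℕ) [Fact p.Prime] (S : Set ℕ)
    {k0 : Type} [Field k0] [CharP k0 p] (θ : heckeAlgebra1 M 2 S →+* k0) :
    ∃ χ : Additive (Gamma1 M) →+ k0, χ ≠ 0 ∧
      (∀ {B : Type} [AddCommGroup B] (f : k0 →+ B), IsParabolicHom (Gamma1 M) (f.comp χ)) ∧
      (∀ (ℓ : ℕ) (hℓ : ℓ.Prime) (hℓM : ¬ ℓ ∣ M) (hℓS : ℓ ∉ S) {B : Type} [AddCommGroup B]
        (f : k0 →+ B) (g : Gamma1 M),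
        @cohT1 M _ B _ ℓ ⟨hℓ⟩ hℓM (diaCoh B (@unitOf M ℓ ⟨hℓ⟩ hℓM)⁻¹ (f.comp χ))
            (Additive.ofMul g)
          = f (θ (heckeAlgebra1.T hℓ hℓM hℓS) * θ (heckeAlgebra1.D (@unitOf M ℓ ⟨hℓ⟩ hℓM)⁻¹)
              * χ (Additive.ofMul g))) ∧
      (∀ (d : (ZMod M)ˣ) {B : Type} [AddCommGroup B] (f : k0 →+ B) (g : Gamma1 M),
        diaCoh B d⁻¹ (f.comp χ) (Additive.ofMul g)
          = f (θ (heckeAlgebra1.D d⁻¹) * χ (Additive.ofMul g))) := by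
  obtain ⟨χ, hχ0, hχpar, hχT, hχD⟩ := lat1 hper p S k0 θ
  refine ⟨χ, hχ0, ?_, ?_, ?_⟩
  · intro B _ f γ hγ
    show f (χ (Additive.ofMul γ)) = 0
    rw [hχpar γ hγ, map_zero]
  · intro ℓ hℓ hℓM hℓS B _ f g
    have : Fact ℓ.Prime := ⟨hℓ⟩
    exact cohT1_diaCoh_comp_eigen hℓM _ (hχT ℓ hℓ hℓM hℓS) (hχD _) f g
  · intro d B _ f g
    exact diaCoh_comp_eigen d⁻¹ (hχD d⁻¹) f g

end Fermat.Agent.DS.P3.Lat
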