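/-
S48 / GATE-N, J1-port: the LAT chain of P3 closed UNCONDITIONALLY (helper19).

`per1Hyp_lat M : Per1Hyp M` (helper70's open input of `DS/P3/Lat/LatInst1.lean`) from the
holomorphic period map `per1 M` of `DS/P3/Per1Gamma1.lean`; hence `lat1_thm : LAT1 M p` and
`lat1_export_thm` (= helper70's `lat1_export` without the hypothesis).
-/
import Fermat.Agent.DS.P3.Per1Gamma1
import Fermat.Agent.DS.P3.Lat.LatExport

set_option autoImplicit false

open scoped MatrixGroups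
open CongruenceSubgroup ModularCurve.Period

namespace Fermat.Agent.DS.P3.Lat

open Fermat.Agent.DS.Hecke Fermat.Agent.DS.P3.Coh1 Fermat.Agent.DS.P3.Per1

variable (M : ℕ) [NeZero M]

/-- **(PER1) holds**: helper70's `Per1Hyp M`, witnessed by the holomorphic period map `per1 M`. -/
theorem per1Hyp_lat : Per1Hyp M :=
  ⟨per1 M, per1_injective M, isParabolicHom_per1 M,
    fun ℓ hℓ hℓM f => @per1_heckeT1Lin M _ ℓ ⟨hℓ⟩ hℓ hℓM f,
    fun d f => per1_diamondLin M d f⟩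

/-- **(LAT1), unconditional**: every mod-`p` eigensystem of the weight-2 Hecke algebra of `Γ₁(M)`
occurs on a nonzero parabolic `k0`-valued homomorphism of `Γ₁(M)`. -/
theorem lat1_thm (p : ℕ) [Fact p.Prime] : LAT1 M p :=
  lat1 (per1Hyp_lat M) p

variable {M}

/-- **(LAT1), export form, unconditional** (inputs `χ hχ0 hχgood heigT heigD` of helper94's
`eig1Rel_of_hyps`). -/
theorem lat1_export_thm (p : ℕ) [Fact p.Prime] (S : Set ℕ)
    {k0 : Type} [Field k0] [CharP k0 p] (θ : heckeAlgebra1 M 2 S →+* k0) :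
    ∃ χ : Additive (Gamma1 M) →+ k0, χ ≠ 0 ∧
      (∀ {B : Type} [AddCommGroup B] (f : k0 →+ B), IsParabolicHom (Gamma1 M) (f.comp χ)) ∧
      (∀ (ℓ : ℕ) (hℓ : ℓ.Prime) (hℓM : ¬ ℓ ∣ M) (hℓS : ℓ ∉ S) {B : Type} [AddCommGroup B]
        (f : k0 →+ B) (g : Gamma1 M),
        @cohT1 M _ B _ ℓ ⟨hℓ⟩ hℓM (diaCoh B (@unitOf M ℓ ⟨hℓ⟩ hℓM)⁻¹ (f.comp χ))
            (Additive.ofMul g)
          = f (θ (heckeAlgebra1.T hℓ hℓM hℓS) * θ (heckeAlgebra1.D (@unitOf M ℓ ⟨hℓ⟩ hℓM)⁻¹)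
              * χ (Additive.ofMul g))) ∧
      (∀ (d : (ZMod M)ˣ) {B : Type} [AddCommGroup B] (f : k0 →+ B) (g : Gamma1 M),
        diaCoh B d⁻¹ (f.comp χ) (Additive.ofMul g)
          = f (θ (heckeAlgebra1.D d⁻¹) * χ (Additive.ofMul g))) :=
  lat1_export (per1Hyp_lat M) p S θ

end Fermat.Agent.DS.P3.Lat
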