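/-
GATE-N / S48-P3-LAT1 (helper70), part 1: the non-commutative eigenvector lemma (EIGNC).

Integer matrices `A i` (NOT assumed to commute) act on `ℤ^n`; a `ℂ`-space `S` embeds into `ℂ^n`
(`w`, injective) equivariantly for operators `t i` on `S`; a COMMUTATIVE ring `T` acts faithfully
on `S`, generated by elements `g i` acting as `t i`.  Then every ring hom `θ : T → k0` to a field
of characteristic `p` has a nonzero simultaneous eigenvector `c ∈ k0^n` of the reduced matrices:
`(A i mod p) c = θ (g i) c`.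

Proof: `U := {x ∈ ℤ^n | ev_A(P) x = 0 for all P ∈ ker ev_T}` (`ev_A, ev_T` the evaluations of the
free algebra on the `A i`, `g i`) is a saturated sublattice, stable under the `A i`, on which `T`
acts (well defined by construction), faithfully (Hamel-basis argument: an integer matrix killing the
integral common kernel kills the complex one, which contains `w S`).  helper53's
`EigenAlg.exists_eigenvector_of_basis` applies to `U`, and the eigenvector is pushed into `k0^n`
through a splitting `ℤ^n → U`.  So NO commutation of the operators on the lattice is needed.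
Mathlib + GJ/J2/EigenAlg (import only).
-/
import Mathlib
import Fermat.Agent.GJ.J2.EigenAlg

set_option autoImplicit false
set_option linter.unusedSectionVars false
set_option linter.style.haveILetI false

namespace Fermat.Agent.DS.P3.Lat

open Matrix

section Core

variable {n : Type*} [Fintype n] [DecidableEq n] {ι : Type*}
variable (A : ι → Matrix n n ℤ) {T : Type*} [CommRing T] (g : ι → T)

/-- evaluation of non-commutative polynomials at the matrices `A i` -/
noncomputable def evA : FreeAlgebra ℤ ι →ₐ[ℤ] Matrix n n ℤ := FreeAlgebra.lift ℤ A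

/-- evaluation of non-commutative polynomials at the generators `g i` of the commutative ring -/
noncomputable def evT : FreeAlgebra ℤ ι →ₐ[ℤ] T := FreeAlgebra.lift ℤ g

theorem evA_ι (i : ι) : evA A (FreeAlgebra.ι ℤ i) = A i := FreeAlgebra.lift_ι_apply _ _

theorem evT_ι (i : ι) : evT g (FreeAlgebra.ι ℤ i) = g i := FreeAlgebra.lift_ι_apply _ _

theorem evT_surjective (hgen : Subring.closure (Set.range g) = ⊤) :
    Function.Surjective (evT g) := by
  intro τ
  have h : τ ∈ Subring.closure (Set.range g) := by rw [hgen]; trivial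
  have hle : Subring.closure (Set.range g) ≤ (evT g).range.toSubring := by
    rw [Subring.closure_le]
    rintro _ ⟨i, rfl⟩
    exact ⟨FreeAlgebra.ι ℤ i, evT_ι g i⟩
  obtain ⟨P, hP⟩ := hle h
  exact ⟨P, hP⟩

/-- the sublattice of `ℤ^n` killed by `ev_A (ker ev_T)` -/
def U : Submodule ℤ (n → ℤ) where
  carrier := {x | ∀ P : FreeAlgebra ℤ ι, evT g P = 0 → evA A P *ᵥ x = 0}
  zero_mem' := by
    intro P _
    simp
  add_mem' := by
    intro x y hx hy P hP
    rw [Matrix.mulVec_add, hx P hP, hy P hP, add_zero]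
  smul_mem' := by
    intro c x hx P hP
    rw [Matrix.mulVec_smul, hx P hP, smul_zero]

variable {A g}

theorem mem_U {x : n → ℤ} :
    x ∈ U A g ↔ ∀ P : FreeAlgebra ℤ ι, evT g P = 0 → evA A P *ᵥ x = 0 := Iff.rfl

theorem mulVec_mem_U (Q : FreeAlgebra ℤ ι) {x : n → ℤ} (hx : x ∈ U A g) :
    evA A Q *ᵥ x ∈ U A g := by
  intro P hP
  rw [Matrix.mulVec_mulVec, ← map_mul]
  exact hx (P * Q) (by rw [map_mul, hP, zero_mul])

theorem mulVec_eq_of_evT_eq {Q Q' : FreeAlgebra ℤ ι} (h : evT g Q = evT g Q') {x : n → ℤ}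
    (hx : x ∈ U A g) : evA A Q *ᵥ x = evA A Q' *ᵥ x := by
  have h0 := hx (Q - Q') (by rw [map_sub, h, sub_self])
  rw [map_sub, Matrix.sub_mulVec, sub_eq_zero] at h0
  exact h0

/-- saturation: `ℤ^n / U` is torsion-free -/
theorem mem_U_of_smul_mem {m : ℤ} (hm : m ≠ 0) {x : n → ℤ} (hx : m • x ∈ U A g) : x ∈ U A g := by
  intro P hP
  have h := hx P hP
  rw [Matrix.mulVec_smul] at h
  rcases smul_eq_zero.mp h with h | h
  · exact absurd h hm
  · exact h

section Action

variable (hsurj : Function.Surjective (evT g))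

/-- a chosen preimage -/
noncomputable def sec (τ : T) : FreeAlgebra ℤ ι := Function.surjInv hsurj τ

theorem evT_sec (τ : T) : evT g (sec hsurj τ) = τ := Function.surjInv_eq hsurj τ

variable (A) in
/-- the action of `τ ∈ T` on `U` -/
noncomputable def endU (τ : T) : Module.End ℤ (U A g) :=
  (Matrix.mulVecLin (evA A (sec hsurj τ))).restrict (fun _ hx => mulVec_mem_U _ hx)

theorem coe_endU (τ : T) (Q : FreeAlgebra ℤ ι) (hQ : evT g Q = τ) (x : U A g) :
    ((endU A hsurj τ x : U A g) : n → ℤ) = evA A Q *ᵥ (x : n → ℤ) := by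
  show evA A (sec hsurj τ) *ᵥ (x : n → ℤ) = _
  exact mulVec_eq_of_evT_eq (by rw [evT_sec, hQ]) x.2

variable (A) in
/-- `T` acts on `U` -/
noncomputable def actU : T →+* Module.End ℤ (U A g) where
  toFun := endU A hsurj
  map_one' := by
    apply LinearMap.ext
    intro x
    apply Subtype.ext
    rw [coe_endU hsurj 1 1 (map_one _) x, map_one, Matrix.one_mulVec]
    rfl
  map_mul' τ τ' := by
    apply LinearMap.ext
    intro x
    apply Subtype.ext
    rw [coe_endU hsurj (τ * τ') (sec hsurj τ * sec hsurj τ')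
      (by rw [map_mul, evT_sec, evT_sec]) x, Module.End.mul_apply,
      coe_endU hsurj τ (sec hsurj τ) (evT_sec hsurj τ),
      coe_endU hsurj τ' (sec hsurj τ') (evT_sec hsurj τ'), map_mul, Matrix.mulVec_mulVec]
  map_zero' := by
    apply LinearMap.ext
    intro x
    apply Subtype.ext
    rw [coe_endU hsurj 0 0 (map_zero _) x, map_zero, Matrix.zero_mulVec]
    rfl
  map_add' τ τ' := by
    apply LinearMap.ext
    intro x
    apply Subtype.ext
    rw [coe_endU hsurj (τ + τ') (sec hsurj τ + sec hsurj τ')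
      (by rw [map_add, evT_sec, evT_sec]) x, LinearMap.add_apply, Submodule.coe_add,
      coe_endU hsurj τ (sec hsurj τ) (evT_sec hsurj τ),
      coe_endU hsurj τ' (sec hsurj τ') (evT_sec hsurj τ'), map_add, Matrix.add_mulVec]

theorem coe_actU (τ : T) (Q : FreeAlgebra ℤ ι) (hQ : evT g Q = τ) (x : U A g) :
    ((actU A hsurj τ x : U A g) : n → ℤ) = evA A Q *ᵥ (x : n → ℤ) :=
  coe_endU hsurj τ Q hQ x

end Action

end Core

/-! ### Integer matrices over `ℚ` and `ℂ`, and the Hamel-basis argument -/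

section Hamel

variable {n : Type*} [Fintype n] [DecidableEq n]

/-- base change of an integer matrix -/
abbrev castM (R : Type*) [Ring R] : Matrix n n ℤ →+* Matrix n n R := (Int.castRingHom R).mapMatrix

theorem castM_mulVec_apply (R : Type*) [Ring R] (N : Matrix n n ℤ) (x : n → R) (i : n) :
    (castM R N *ᵥ x) i = ∑ j, (N i j : ℤ) • x j := by
  rw [Matrix.mulVec, dotProduct]
  refine Finset.sum_congr rfl fun j _ => ?_
  rw [zsmul_eq_mul]
  rfl

theorem castM_mulVec_intCast (R : Type*) [Ring R] (N : Matrix n n ℤ) (y : n → ℤ) (i : n) :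
    (castM R N *ᵥ fun j => ((y j : ℤ) : R)) i = (((N *ᵥ y) i : ℤ) : R) := by
  rw [castM_mulVec_apply, Matrix.mulVec, dotProduct, Int.cast_sum]
  refine Finset.sum_congr rfl fun j _ => ?_
  rw [zsmul_eq_mul, Int.cast_mul]

/-- An integer matrix `M` killing the integral common kernel of a family of integer matrices
kills the complex common kernel. -/
theorem castC_mulVec_eq_zero {κ : Type*} (N : κ → Matrix n n ℤ) (M : Matrix n n ℤ)
    (hM : ∀ y : n → ℤ, (∀ k, N k *ᵥ y = 0) → M *ᵥ y = 0)
    (x : n → ℂ) (hx : ∀ k, castM ℂ (N k) *ᵥ x = 0) : castM ℂ M *ᵥ x = 0 := by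
  classical
  set b := Module.Basis.ofVectorSpace ℚ ℂ with hb
  -- the rational components of `x`
  set xc : Module.Basis.ofVectorSpaceIndex ℚ ℂ → n → ℚ := fun α j => b.repr (x j) α with hxc
  have key : ∀ (L : Matrix n n ℤ) (i : n) (α : Module.Basis.ofVectorSpaceIndex ℚ ℂ),
      b.repr ((castM ℂ L *ᵥ x) i) α = (castM ℚ L *ᵥ xc α) i := by
    intro L i α
    rw [castM_mulVec_apply, castM_mulVec_apply, map_sum, Finsupp.finsetSum_apply]
    refine Finset.sum_congr rfl fun j _ => ?_
    rw [map_zsmul, Finsupp.smul_apply]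
  have hxc0 : ∀ α k, castM ℚ (N k) *ᵥ xc α = 0 := by
    intro α k
    funext i
    rw [← key, hx k, Pi.zero_apply, map_zero, Finsupp.zero_apply, Pi.zero_apply]
  have hM' : ∀ α, castM ℚ M *ᵥ xc α = 0 := by
    intro α
    obtain ⟨d, hd⟩ := IsLocalization.exist_integer_multiples (nonZeroDivisors ℤ)
      (Finset.univ : Finset n) (xc α)
    have hd0 : ((d : ℤ) : ℚ) ≠ 0 := by
      have := nonZeroDivisors.ne_zero d.2
      exact_mod_cast this
    choose! y hy using fun j => hd j (Finset.mem_univ j)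
    have hy' : (fun j => ((y j : ℤ) : ℚ)) = ((d : ℤ) : ℚ) • xc α := by
      funext j
      have := hy j
      rw [Pi.smul_apply, smul_eq_mul]
      rw [Algebra.smul_def] at this
      exact this
    have hyU : ∀ k, N k *ᵥ y = 0 := by
      intro k
      funext i
      have h1 := castM_mulVec_intCast ℚ (N k) y i
      rw [hy', Matrix.mulVec_smul, hxc0 α k, smul_zero, Pi.zero_apply] at h1
      rw [Pi.zero_apply]
      exact_mod_cast h1.symm
    have hMy := hM y hyU
    have h2 : castM ℚ M *ᵥ (((d : ℤ) : ℚ) • xc α) = 0 := by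
      rw [← hy']
      funext i
      rw [castM_mulVec_intCast, hMy, Pi.zero_apply, Int.cast_zero, Pi.zero_apply]
    rw [Matrix.mulVec_smul] at h2
    rcases smul_eq_zero.mp h2 with h | h
    · exact absurd h hd0
    · exact h
  funext i
  rw [Pi.zero_apply, ← b.repr.map_eq_zero_iff]
  ext α
  rw [key, hM' α, Pi.zero_apply, Finsupp.zero_apply]

end Hamel

/-! ### Faithfulness of `T` on `U` -/

section Faithful

variable {n : Type*} [Fintype n] [DecidableEq n] {ι : Type*}
variable {A : ι → Matrix n n ℤ} {T : Type*} [CommRing T] {g : ι → T}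
variable {S : Type*} [AddCommGroup S] [Module ℂ S] {w : S →ₗ[ℂ] (n → ℂ)}
  {t : ι → Module.End ℂ S} {act : T →+* Module.End ℂ S}

/-- equivariance of `w` for all non-commutative polynomials -/
theorem w_act_evT (hwt : ∀ i f, w (t i f) = castM ℂ (A i) *ᵥ w f) (hg : ∀ i, act (g i) = t i)
    (P : FreeAlgebra ℤ ι) : ∀ f : S, w (act (evT g P) f) = castM ℂ (evA A P) *ᵥ w f := by
  induction P using FreeAlgebra.induction with
  | grade0 r =>
    intro f
    rw [AlgHom.commutes, AlgHom.commutes, eq_intCast, eq_intCast, map_intCast, map_intCast,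
      Module.End.intCast_apply, map_zsmul, Matrix.intCast_mulVec]
    exact (Int.cast_smul_eq_zsmul ℂ r (w f)).symm
  | grade1 i =>
    intro f
    rw [evT_ι, evA_ι, hg, hwt]
  | mul a b ha hb =>
    intro f
    rw [map_mul, map_mul, Module.End.mul_apply, ha, hb, map_mul, map_mul, Matrix.mulVec_mulVec]
  | add a b ha hb =>
    intro f
    rw [map_add, map_add, LinearMap.add_apply, map_add, ha, hb, map_add, map_add,
      Matrix.add_mulVec]

theorem actU_injective (hw : Function.Injective w)
    (hwt : ∀ i f, w (t i f) = castM ℂ (A i) *ᵥ w f) (hact : Function.Injective act)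
    (hg : ∀ i, act (g i) = t i) (hsurj : Function.Surjective (evT g)) :
    Function.Injective (actU A hsurj) := by
  rw [injective_iff_map_eq_zero]
  intro τ hτ
  apply hact
  rw [map_zero]
  apply LinearMap.ext
  intro f
  apply hw
  rw [LinearMap.zero_apply, map_zero]
  have h1 := w_act_evT hwt hg (sec hsurj τ) f
  rw [evT_sec] at h1
  rw [h1]
  refine castC_mulVec_eq_zero (fun P : {P : FreeAlgebra ℤ ι // evT g P = 0} => evA A P.1)
    (evA A (sec hsurj τ)) ?_ (w f) ?_
  · intro y hy
    have hyU : y ∈ U A g := fun P hP => hy ⟨P, hP⟩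
    have h2 := coe_actU hsurj τ (sec hsurj τ) (evT_sec hsurj τ) ⟨y, hyU⟩
    rw [hτ] at h2
    exact h2.symm
  · rintro ⟨P, hP⟩
    have h3 := w_act_evT hwt hg P f
    rw [hP, map_zero, LinearMap.zero_apply, map_zero] at h3
    exact h3.symm

end Faithful

/-! ### Splitting of a saturated sublattice and the final statement -/

section Final

variable {n : Type*} [Fintype n] [DecidableEq n] {ι : Type*}

/-- a saturated sublattice of `ℤ^n` is a direct summand -/
theorem exists_retraction (V : Submodule ℤ (n → ℤ))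
    (hV : ∀ m : ℤ, m ≠ 0 → ∀ x : n → ℤ, m • x ∈ V → x ∈ V) :
    ∃ r : (n → ℤ) →ₗ[ℤ] V, ∀ v : V, r (v : n → ℤ) = v := by
  haveI : Module.IsTorsionFree ℤ ((n → ℤ) ⧸ V) := by
    refine Module.IsTorsionFree.of_smul_eq_zero fun m q h => ?_
    obtain ⟨x, rfl⟩ := Submodule.Quotient.mk_surjective V q
    by_cases hm : m = 0
    · exact Or.inl hm
    · refine Or.inr ?_
      rw [← Submodule.Quotient.mk_smul, Submodule.Quotient.mk_eq_zero] at h
      rw [Submodule.Quotient.mk_eq_zero]
      exact hV m hm x h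
  obtain ⟨s, hs⟩ := Module.projective_lifting_property V.mkQ LinearMap.id
    (Submodule.mkQ_surjective V)
  set e : (n → ℤ) →ₗ[ℤ] (n → ℤ) := LinearMap.id - s ∘ₗ V.mkQ with he
  have he_apply : ∀ x, e x = x - s (V.mkQ x) := fun x => rfl
  have hmem : ∀ x : n → ℤ, e x ∈ V := by
    intro x
    rw [← Submodule.Quotient.mk_eq_zero, he_apply, Submodule.Quotient.mk_sub]
    have h1 := LinearMap.congr_fun hs (V.mkQ x)
    rw [LinearMap.comp_apply, LinearMap.id_apply, Submodule.mkQ_apply, Submodule.mkQ_apply] at h1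
    rw [Submodule.mkQ_apply, h1, sub_self]
  refine ⟨e.codRestrict V hmem, fun v => ?_⟩
  apply Subtype.ext
  rw [LinearMap.codRestrict_apply, he_apply,
    Submodule.mkQ_apply, (Submodule.Quotient.mk_eq_zero V).mpr v.2, map_zero, sub_zero]

/-- **(EIGNC)** the non-commutative eigenvector lemma. -/
theorem exists_eigenvector_nc (A : ι → Matrix n n ℤ)
    {S : Type*} [AddCommGroup S] [Module ℂ S] (w : S →ₗ[ℂ] (n → ℂ)) (hw : Function.Injective w)
    (t : ι → Module.End ℂ S)
    (hwt : ∀ i f, w (t i f) = (A i).map (Int.cast : ℤ → ℂ) *ᵥ w f)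
    {T : Type*} [CommRing T] (act : T →+* Module.End ℂ S) (hact : Function.Injective act)
    (g : ι → T) (hg : ∀ i, act (g i) = t i) (hgen : Subring.closure (Set.range g) = ⊤)
    (p : ℕ) [Fact p.Prime] {k0 : Type*} [Field k0] [CharP k0 p] (θ : T →+* k0) :
    ∃ c : n → k0, c ≠ 0 ∧ ∀ i, (A i).map (Int.cast : ℤ → k0) *ᵥ c = θ (g i) • c := by
  classical
  have hsurj := evT_surjective g hgen
  have hwt' : ∀ i f, w (t i f) = castM ℂ (A i) *ᵥ w f := hwt
  letI : Module T (U A g) := Module.compHom (U A g) (actU A hsurj)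
  have hsmul : ∀ (τ : T) (x : U A g), τ • x = actU A hsurj τ x := fun _ _ => rfl
  have hfaith : ∀ τ : T, (∀ x : U A g, τ • x = 0) → τ = 0 := by
    intro τ hτ
    apply actU_injective hw hwt' hact hg hsurj
    rw [map_zero]
    exact LinearMap.ext hτ
  set b := Module.Free.chooseBasis ℤ (U A g) with hb
  obtain ⟨c', hc'0, hc'⟩ :=
    Fermat.Agent.GJ.J2.EigenAlg.exists_eigenvector_of_basis b hfaith p θ
  obtain ⟨r, hr⟩ := exists_retraction (U A g) (fun m hm x hx => mem_U_of_smul_mem hm hx)
  -- the three integer matrices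
  set B : Matrix n (Module.Free.ChooseBasisIndex ℤ (U A g)) ℤ :=
    Matrix.of fun j ν => ((b ν : U A g) : n → ℤ) j with hB
  set R : Matrix (Module.Free.ChooseBasisIndex ℤ (U A g)) n ℤ :=
    Matrix.of fun μ j => b.repr (r (Pi.single j 1)) μ with hR
  have hcol : ∀ ν, ((b ν : U A g) : n → ℤ) = ∑ j, B j ν • (Pi.single j (1 : ℤ) : n → ℤ) := by
    intro ν
    funext k
    rw [Finset.sum_apply]
    simp only [Pi.smul_apply, Pi.single_apply, smul_eq_mul, mul_ite, mul_one, mul_zero,
      Finset.sum_ite_eq, Finset.mem_univ, if_true]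
    rfl
  have hRB : R * B = 1 := by
    ext μ ν
    have h1 : r ((b ν : U A g) : n → ℤ) = b ν := hr (b ν)
    have h2 : b.repr (r ((b ν : U A g) : n → ℤ)) μ = ∑ j, R μ j * B j ν := by
      conv_lhs => rw [hcol ν]
      rw [map_sum, map_sum, Finsupp.finsetSum_apply]
      refine Finset.sum_congr rfl fun j _ => ?_
      rw [map_smul, map_smul, Finsupp.smul_apply, smul_eq_mul, mul_comm]
      rfl
    rw [Matrix.mul_apply, ← h2, h1, Module.Basis.repr_self, Finsupp.single_apply,
      Matrix.one_apply]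
    by_cases h : ν = μ
    · rw [if_pos h, if_pos h.symm]
    · rw [if_neg h, if_neg (fun h' => h h'.symm)]
  have hAB : ∀ i, A i * B = B * Matrix.of fun μ ν => b.repr (g i • b ν) μ := by
    intro i
    ext k ν
    have h1 : ((g i • b ν : U A g) : n → ℤ) = A i *ᵥ ((b ν : U A g) : n → ℤ) := by
      rw [hsmul, coe_actU hsurj (g i) (FreeAlgebra.ι ℤ i) (evT_ι g i), evA_ι]
    have h2 : ((g i • b ν : U A g) : n → ℤ) k
        = ∑ μ, b.repr (g i • b ν) μ * B k μ := by
      conv_lhs => rw [← b.sum_repr (g i • b ν)]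
      rw [Submodule.coe_sum, Finset.sum_apply]
      refine Finset.sum_congr rfl fun μ _ => ?_
      rw [Submodule.coe_smul, Pi.smul_apply, smul_eq_mul]
      rfl
    rw [Matrix.mul_apply, Matrix.mul_apply]
    calc ∑ j, A i k j * B j ν = (A i *ᵥ ((b ν : U A g) : n → ℤ)) k := rfl
      _ = ∑ μ, b.repr (g i • b ν) μ * B k μ := by rw [← h1, h2]
      _ = _ := Finset.sum_congr rfl fun μ _ => by rw [mul_comm]; rfl
  set f := Int.castRingHom k0 with hf
  have hMc : ∀ i, (Matrix.of fun μ ν => b.repr (g i • b ν) μ).map f *ᵥ c' = θ (g i) • c' := by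
    intro i
    funext μ
    rw [Matrix.mulVec, dotProduct, Pi.smul_apply, smul_eq_mul, ← hc' (g i) μ]
    rfl
  refine ⟨B.map f *ᵥ c', ?_, fun i => ?_⟩
  · intro h0
    apply hc'0
    have h1 : R.map f *ᵥ (B.map f *ᵥ c') = c' := by
      rw [Matrix.mulVec_mulVec, ← Matrix.map_mul, hRB, Matrix.map_one _ (map_zero f) (map_one f),
        Matrix.one_mulVec]
    rw [← h1, h0, Matrix.mulVec_zero]
  · show (A i).map f *ᵥ (B.map f *ᵥ c') = _
    rw [Matrix.mulVec_mulVec, ← Matrix.map_mul, hAB i, Matrix.map_mul, ← Matrix.mulVec_mulVec,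
      hMc i, Matrix.mulVec_smul]

end Final

end Fermat.Agent.DS.P3.Lat
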