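/-
GATE-N / S48-P3-LAT1 (helper70), part 2: the ABSTRACT lattice theorem (LAT), `Γ`-generic.

`Γ` a finitely generated group, `Ps ⊆ Γ` (the parabolic elements), `op A i` a family of additive
operators on `Hom(Γ, A)`, natural in the coefficient group `A` and preserving "kills `Ps`";
`per : S → Hom(Γ, ℂ)` a `ℂ`-linear INJECTIVE map with values killing `Ps`, equivariant for operators
`t i` on `S`; `T` a COMMUTATIVE ring acting faithfully on `S`, generated by elements `g i` acting as
`t i`.  Then for every ring hom `θ : T → k0` (`k0` a field of characteristic `p`) there is a nonzero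
`χ : Γ → k0` killing `Ps` with `op k0 i χ = θ (g i) • χ` for all `i`.

No commutation of the `op`'s is assumed (see `EigNC.lean`); no surjectivity of `per`.
Instantiation (LatInst1): `Γ = Γ₁(M)`, `op = cohT1 / diaCoh`, `per = per1`, `T = heckeAlgebra1`.
-/
import Mathlib
import Fermat.Agent.GJ.J2.ZStructGen
import Fermat.Agent.DS.P3.Lat.EigNC

set_option autoImplicit false
set_option linter.unusedSectionVars false

namespace Fermat.Agent.DS.P3.Lat

open Matrix Fermat.Agent.GJ.J2.ZStruct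

section Abs

variable {Γ : Type*} [Group Γ] [Group.FG Γ] (Ps : Set Γ) {ι : Type*}
  (op : ∀ (A : Type) [AddCommGroup A], ι → (Additive Γ →+ A) →+ (Additive Γ →+ A))

/-- the reduction of the integral basis element `PhiB Ps j` to a ring `R` -/
noncomputable def PhiR (R : Type*) [Ring R] (j : Idx Ps) : Additive Γ →+ R :=
  (Int.castAddHom R).comp (PhiB Ps j)

theorem PhiR_apply (R : Type*) [Ring R] (j : Idx Ps) (γ : Additive Γ) :
    PhiR Ps R j γ = ((PhiB Ps j γ : ℤ) : R) := rfl

theorem PhiR_betaB [DecidableEq (Idx Ps)] (R : Type*) [Ring R] (j k : Idx Ps) :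
    PhiR Ps R j (betaB Ps k) = if j = k then 1 else 0 := by
  rw [PhiR_apply, PhiB_betaB]
  split_ifs <;> simp

theorem PhiR_kills (R : Type*) [Ring R] (j : Idx Ps) : KillsOn Ps (PhiR Ps R j) := by
  intro γ hγ
  rw [PhiR_apply, PhiB_kills Ps j γ hγ, Int.cast_zero]

theorem sum_smul_PhiR_apply (R : Type*) [Ring R] (c : Idx Ps → R) (γ : Additive Γ) :
    (∑ j, c j • PhiR Ps R j) γ = ∑ j, c j * ((PhiB Ps j γ : ℤ) : R) := by
  rw [AddMonoidHom.finsetSum_apply]
  rfl

theorem sum_smul_PhiR_betaB [DecidableEq (Idx Ps)] (R : Type*) [Ring R] (c : Idx Ps → R)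
    (k : Idx Ps) : (∑ j, c j • PhiR Ps R j) (betaB Ps k) = c k := by
  rw [sum_smul_PhiR_apply]
  simp_rw [PhiB_betaB]
  simp

/-- expansion of a hom killing `Ps` with values in a torsion-free commutative ring -/
theorem eq_sum_smul_PhiR (R : Type*) [CommRing R]
    (hR : ∀ (m : ℤ) (a : R), m ≠ 0 → m • a = 0 → a = 0)
    (φ : Additive Γ →+ R) (hφ : KillsOn Ps φ) :
    φ = ∑ j, φ (betaB Ps j) • PhiR Ps R j := by
  refine AddMonoidHom.ext fun γ => ?_
  rw [sum_smul_PhiR_apply, expansion Ps hR φ hφ γ]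
  refine Finset.sum_congr rfl fun j _ => ?_
  rw [zsmul_eq_mul, mul_comm]

variable {Ps}

/-- the integer matrices of the operators on the basis `PhiB` -/
noncomputable def Amat (i : ι) : Matrix (Idx Ps) (Idx Ps) ℤ :=
  Matrix.of fun k j => op ℤ i (PhiB Ps j) (betaB Ps k)

variable (O1 : ∀ {A B : Type} [AddCommGroup A] [AddCommGroup B] (f : A →+ B) (i : ι)
    (φ : Additive Γ →+ A), op B i (f.comp φ) = f.comp (op A i φ))
  (O2 : ∀ {A : Type} [AddCommGroup A] (i : ι) (φ : Additive Γ →+ A),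
    KillsOn Ps φ → KillsOn Ps (op A i φ))

include O1 in
theorem op_smul (R : Type) [Ring R] (i : ι) (c : R) (φ : Additive Γ →+ R) :
    op R i (c • φ) = c • op R i φ := by
  have h := O1 (AddMonoidHom.mulLeft c) i φ
  have e : ∀ ψ : Additive Γ →+ R, (AddMonoidHom.mulLeft c).comp ψ = c • ψ := fun ψ =>
    AddMonoidHom.ext fun γ => rfl
  rw [e, e] at h
  exact h

include O2 in
theorem op_PhiB (i : ι) (j : Idx Ps) :
    op ℤ i (PhiB Ps j) = ∑ k, Amat op i k j • PhiB Ps k := by
  refine AddMonoidHom.ext fun γ => ?_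
  have hZ : ∀ (m : ℤ) (a : ℤ), m ≠ 0 → m • a = 0 → a = 0 := by
    intro m a hm h
    rcases smul_eq_zero.mp h with h | h
    · exact absurd h hm
    · exact h
  rw [expansion Ps hZ (op ℤ i (PhiB Ps j)) (O2 i _ (PhiB_kills Ps j)) γ,
    AddMonoidHom.finsetSum_apply]
  refine Finset.sum_congr rfl fun k _ => ?_
  rw [AddMonoidHom.smul_apply, smul_eq_mul, smul_eq_mul, mul_comm]
  rfl

include O1 O2 in
theorem op_PhiR (R : Type) [Ring R] (i : ι) (j : Idx Ps) :
    op R i (PhiR Ps R j) = ∑ k, ((Amat op i k j : ℤ) : R) • PhiR Ps R k := by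
  rw [PhiR, O1, op_PhiB op O2]
  refine AddMonoidHom.ext fun γ => ?_
  rw [AddMonoidHom.comp_apply, AddMonoidHom.finsetSum_apply, AddMonoidHom.finsetSum_apply,
    map_sum]
  refine Finset.sum_congr rfl fun k _ => ?_
  rw [AddMonoidHom.smul_apply, AddMonoidHom.smul_apply, smul_eq_mul, smul_eq_mul]
  show ((Amat op i k j * PhiB Ps k γ : ℤ) : R) = _
  rw [Int.cast_mul]
  rfl

include O1 O2 in
theorem op_sum_smul_PhiR (R : Type) [CommRing R] (i : ι) (c : Idx Ps → R) :
    op R i (∑ j, c j • PhiR Ps R j)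
      = ∑ k, (((Amat op i).map (Int.cast : ℤ → R)) *ᵥ c) k • PhiR Ps R k := by
  rw [map_sum]
  simp_rw [op_smul op O1, op_PhiR op O1 O2, Finset.smul_sum, smul_smul]
  rw [Finset.sum_comm]
  refine Finset.sum_congr rfl fun k _ => ?_
  rw [← Finset.sum_smul]
  congr 1
  rw [Matrix.mulVec, dotProduct]
  refine Finset.sum_congr rfl fun j _ => ?_
  rw [mul_comm]
  rfl

variable {S : Type*} [AddCommGroup S] [Module ℂ S] (per : S →ₗ[ℂ] (Additive Γ →+ ℂ))

/-- the period coordinates `f ↦ (per f (β k))_k` -/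
noncomputable def wPer : S →ₗ[ℂ] (Idx Ps → ℂ) where
  toFun f := fun k => per f (betaB Ps k)
  map_add' f f' := by
    funext k
    rw [map_add]
    rfl
  map_smul' c f := by
    funext k
    rw [map_smul]
    rfl

theorem wPer_apply (f : S) (k : Idx Ps) : wPer (Ps := Ps) per f k = per f (betaB Ps k) := rfl

theorem complex_torsionFree : ∀ (m : ℤ) (a : ℂ), m ≠ 0 → m • a = 0 → a = 0 := by
  intro m a hm h
  rcases smul_eq_zero.mp h with h | h
  · exact absurd h hm
  · exact h

theorem per_eq_sum (P2 : ∀ f, KillsOn Ps (per f)) (f : S) :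
    per f = ∑ j, wPer (Ps := Ps) per f j • PhiR Ps ℂ j :=
  eq_sum_smul_PhiR Ps ℂ complex_torsionFree (per f) (P2 f)

include O1 O2 in
/-- **(LAT), abstract form.** -/
theorem exists_eigenclass_abs
    (P1 : Function.Injective per) (P2 : ∀ f, KillsOn Ps (per f))
    (t : ι → Module.End ℂ S) (P3 : ∀ i f, per (t i f) = op ℂ i (per f))
    {T : Type*} [CommRing T] (act : T →+* Module.End ℂ S) (T1 : Function.Injective act)
    (g : ι → T) (T2 : ∀ i, act (g i) = t i) (T3 : Subring.closure (Set.range g) = ⊤)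
    (p : ℕ) [Fact p.Prime] {k0 : Type} [Field k0] [CharP k0 p] (θ : T →+* k0) :
    ∃ χ : Additive Γ →+ k0, χ ≠ 0 ∧ KillsOn Ps χ ∧ ∀ i, op k0 i χ = θ (g i) • χ := by
  classical
  have hw : Function.Injective (wPer (Ps := Ps) per) := by
    intro f f' h
    apply P1
    rw [per_eq_sum per P2 f, per_eq_sum per P2 f', h]
  have hwt : ∀ i f, wPer (Ps := Ps) per (t i f)
      = (Amat op i).map (Int.cast : ℤ → ℂ) *ᵥ wPer (Ps := Ps) per f := by
    intro i f
    funext k
    rw [wPer_apply, P3, per_eq_sum per P2 f, op_sum_smul_PhiR op O1 O2, sum_smul_PhiR_betaB]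
  obtain ⟨c, hc0, hc⟩ := exists_eigenvector_nc (Amat op) (wPer (Ps := Ps) per) hw t hwt act T1 g
    T2 T3 p θ
  refine ⟨∑ j, c j • PhiR Ps k0 j, ?_, ?_, fun i => ?_⟩
  · intro h0
    apply hc0
    funext k
    rw [← sum_smul_PhiR_betaB Ps k0 c k, h0]
    rfl
  · intro γ hγ
    rw [sum_smul_PhiR_apply]
    refine Finset.sum_eq_zero fun j _ => ?_
    rw [PhiB_kills Ps j γ hγ, Int.cast_zero, mul_zero]
  · rw [op_sum_smul_PhiR op O1 O2, hc i, Finset.smul_sum]
    refine Finset.sum_congr rfl fun k _ => ?_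
    rw [Pi.smul_apply, smul_eq_mul, mul_smul]

end Abs

end Fermat.Agent.DS.P3.Lat
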