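/-
GATE-N / S48-P3-LAT1 (helper70), part 3: the instantiation of the abstract lattice theorem
(`LatAbs.exists_eigenclass_abs`) at `Γ₁(M)`.

Inputs on main: helper42 `DS/P3/Coh1` (`cohT1`, `diaCoh`, naturality, parabolic preservation),
helper42 `DS/P3/ZStr1` (`Group.FG (Gamma1 M)`, `parSet`), helper18 `DS/Hecke/HeckeAlgebra1Gen`
(`heckeAlgebra1.act / Idx / gen / opLin / closure_range_gen`).
Open input: helper19's PER1, as the Prop `Per1Hyp M` below.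

`lat1 : Per1Hyp M → LAT1 M p` : every mod-`p` eigensystem `θ` of `heckeAlgebra1 M 2 S` occurs on a
nonzero parabolic homomorphism `χ : Γ₁(M) → k0`:
`cohT1 ℓ χ = θ(T_ℓ) • χ`, `diaCoh d χ = θ(⟨d⟩) • χ`.
-/
import Mathlib
import Fermat.Agent.DS.P3.Lat.LatAbs
import Fermat.Agent.DS.P3.Coh1
import Fermat.Agent.DS.P3.ZStr1
import Fermat.Agent.DS.Hecke.HeckeAlgebra1Gen

set_option autoImplicit false

open scoped MatrixGroups
open CongruenceSubgroup ModularCurve.Period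

namespace Fermat.Agent.DS.P3.Lat

open Fermat.Agent.DS.Hecke Fermat.Agent.DS.P3.Coh1 Fermat.Agent.DS.P3.ZStr1

variable (M : ℕ) [NeZero M]

/-- **(PER1)** what the holomorphic period map of `Γ₁(M)` must satisfy (helper19): `ℂ`-linear,
injective, parabolic values, equivariant for `T_ℓ` (`ℓ ∤ M`) and the diamond operators. -/
def Per1Hyp : Prop :=
  ∃ per1 : CuspForm (Gamma1 M : Subgroup (GL (Fin 2) ℝ)) 2 →ₗ[ℂ] (Additive (Gamma1 M) →+ ℂ),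
    Function.Injective per1 ∧ (∀ f, IsParabolicHom (Gamma1 M) (per1 f)) ∧
    (∀ (ℓ : ℕ) (hℓ : ℓ.Prime) (hℓM : ¬ ℓ ∣ M) (f : CuspForm (Gamma1 M : Subgroup (GL (Fin 2) ℝ)) 2),
      per1 (heckeT1Lin 2 hℓ hℓM f) = @cohT1 M _ ℂ _ ℓ ⟨hℓ⟩ hℓM (per1 f)) ∧
    ∀ (d : (ZMod M)ˣ) (f : CuspForm (Gamma1 M : Subgroup (GL (Fin 2) ℝ)) 2),
      per1 (diamondLin 2 d f) = diaCoh ℂ d (per1 f)

/-- the cohomological operators indexed like the generators of `heckeAlgebra1 M k S` -/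
noncomputable def opCoh (S : Set ℕ) (A : Type) [AddCommGroup A] :
    heckeAlgebra1.Idx M S → (Additive (Gamma1 M) →+ A) →+ (Additive (Gamma1 M) →+ A)
  | Sum.inl ℓ => @cohT1 M _ A _ ℓ.1 ⟨ℓ.2.1⟩ ℓ.2.2.1
  | Sum.inr d => diaCoh A d

/-- **(LAT1)** every mod-`p` eigensystem of the weight-2 Hecke algebra of `Γ₁(M)` occurs on a
nonzero parabolic `k0`-valued homomorphism of `Γ₁(M)`. -/
def LAT1 (p : ℕ) : Prop :=
  ∀ (S : Set ℕ) (k0 : Type) [Field k0] [CharP k0 p] (θ : heckeAlgebra1 M 2 S →+* k0),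
    ∃ χ : Additive (Gamma1 M) →+ k0, χ ≠ 0 ∧ IsParabolicHom (Gamma1 M) χ ∧
      (∀ (ℓ : ℕ) (hℓ : ℓ.Prime) (hℓM : ¬ ℓ ∣ M) (hℓS : ℓ ∉ S),
        @cohT1 M _ k0 _ ℓ ⟨hℓ⟩ hℓM χ = θ (heckeAlgebra1.T hℓ hℓM hℓS) • χ) ∧
      ∀ d : (ZMod M)ˣ, diaCoh k0 d χ = θ (heckeAlgebra1.D d) • χ

variable {M}

/-- **LAT1 from PER1.** -/
theorem lat1 (hper : Per1Hyp M) (p : ℕ) [Fact p.Prime] : LAT1 M p := by
  intro S k0 _ _ θ
  obtain ⟨per1, hinj, hpar, hT, hD⟩ := hper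
  obtain ⟨χ, hχ0, hχpar, hχ⟩ := exists_eigenclass_abs (Γ := Gamma1 M) (Ps := parSet (Gamma1 M))
    (op := opCoh M S)
    (by
      intro A B _ _ f i φ
      cases i with
      | inl ℓ => exact @cohT1_comp M _ A _ ℓ.1 ⟨ℓ.2.1⟩ ℓ.2.2.1 B _ f φ
      | inr d => exact diaCoh_comp d f φ)
    (by
      intro A _ i φ hφ
      cases i with
      | inl ℓ => exact @cohT1_isParabolicHom M _ A _ ℓ.1 ⟨ℓ.2.1⟩ ℓ.2.2.1 φ hφ
      | inr d => exact diaCoh_isParabolicHom d φ hφ)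
    per1 hinj hpar (opLin 2)
    (by
      intro i f
      cases i with
      | inl ℓ => exact hT ℓ.1 ℓ.2.1 ℓ.2.2.1 f
      | inr d => exact hD d f)
    (heckeAlgebra1.act M 2 S) heckeAlgebra1.act_injective (heckeAlgebra1.gen 2)
    heckeAlgebra1.act_gen heckeAlgebra1.closure_range_gen p θ
  exact ⟨χ, hχ0, hχpar, fun ℓ hℓ hℓM hℓS => hχ (Sum.inl ⟨ℓ, hℓ, hℓM, hℓS⟩),
    fun d => hχ (Sum.inr d)⟩

end Fermat.Agent.DS.P3.Lat
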